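import Fermat.Agent.DedekindZeroCount.Edges

/-!
# The formula of Riemann and von Mangoldt for the zeta function of a number field

For a number field `K` of degree `n` and discriminant `d` the number of zeros of `ζ_K` with
`0 < re < 1` and `|im| ≤ T` is `T/π log (|d| (T / (2 π e)) ^ n) + O (1 + log |d| + n log (T + 3))`
for `T ≥ 2`, with one constant for all fields.
-/

set_option autoImplicit false
set_option linter.style.haveILetI false

noncomputable section

universe u

open NumberField InfinitePlace Module Complex Filter Topology Set MeasureTheory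
open FA.HeckeBS FA.HeckeFE FA.DedekindZF
open FA.ExplicitFormula (boxInt)
open scoped Real Classical ComplexConjugate

namespace FA.DedekindZeroCount

variable (K : Type u) [Field K] [NumberField K]

/-- The main term. -/
def zMain (T : ℝ) : ℝ :=
  T / π * (discLog K + finrank ℚ K * (Real.log (T / (2 * π)) - 1))

theorem zMain_eq (T : ℝ) : π * zMain K T =
    T * discLog K + finrank ℚ K * (T * Real.log (T / (2 * π)) - T) := by
  rw [zMain]
  field_simp

/-- The main term as one logarithm. -/
theorem zMain_eq_log {T : ℝ} (hT : 0 < T) : zMain K T = T / π * Real.log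
    ((((discr K).natAbs : ℕ) : ℝ) * (T / (2 * π * Real.exp 1)) ^ finrank ℚ K) := by
  rw [zMain, discLog, Real.log_mul (Nat.cast_ne_zero.2 (Int.natAbs_ne_zero.2 (discr_ne_zero K)))
    (by positivity), Real.log_pow, show T / (2 * π * Real.exp 1) = T / (2 * π) / Real.exp 1 by
      field_simp, Real.log_div (by positivity) (Real.exp_ne_zero 1), Real.log_exp]

/-- The left edge, by the functional equation. -/
theorem vertical_left (T : ℝ) :
    (∫ v in (-T)..T, xiLog K (((-1 : ℝ) : ℂ) + v * I)).re =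
      -(∫ v in (-T)..T, xiLog K (((2 : ℝ) : ℂ) + v * I)).re := by
  have he : ∀ v : ℝ, xiLog K (((-1 : ℝ) : ℂ) + v * I) =
      -conj (xiLog K (((2 : ℝ) : ℂ) + v * I)) := fun v => by
    rw [show ((-1 : ℝ) : ℂ) + v * I = 1 - conj (((2 : ℝ) : ℂ) + v * I) from
      Complex.ext (by simp; norm_num) (by simp), xiLog_reflect]
  simp only [he]
  rw [intervalIntegral.integral_neg, intervalIntegral.intervalIntegral_conj, neg_re, conj_re]

/-- A horizontal edge is twice its right half. -/
theorem horizontal_double {t : ℝ} (hord : ∀ ρ, xiFun K ρ = 0 → ρ.im ≠ t) :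
    (∫ u in (-1 : ℝ)..2, xiLog K ((u : ℂ) + t * I)).im =
      2 * (∫ u in (1 / 2 : ℝ)..2, xiLog K ((u : ℂ) + t * I)).im := by
  have hc : Continuous fun u : ℝ => xiLog K ((u : ℂ) + t * I) :=
    continuous_iff_continuousAt.2 fun u => ContinuousAt.comp' (g := xiLog K)
      (continuousAt_xiLog K fun h => hord _ h (by simp))
      (f := fun v : ℝ => (v : ℂ) + t * I) (by fun_prop)
  have he : ∀ u : ℝ, xiLog K ((u : ℂ) + t * I) =
      -conj (xiLog K (((1 - u : ℝ) : ℂ) + t * I)) := fun u => by
    rw [show (u : ℂ) + t * I = 1 - conj (((1 - u : ℝ) : ℂ) + t * I) from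
      Complex.ext (by simp) (by simp), xiLog_reflect]
  have hleft : (∫ u in (-1 : ℝ)..(1 / 2), xiLog K ((u : ℂ) + t * I)).im =
      (∫ u in (1 / 2 : ℝ)..2, xiLog K ((u : ℂ) + t * I)).im := by
    rw [intervalIntegral.integral_congr fun u _ => he u, intervalIntegral.integral_neg,
      intervalIntegral.intervalIntegral_conj,
      intervalIntegral.integral_comp_sub_left (fun x : ℝ => xiLog K ((x : ℂ) + t * I)) 1]
    norm_num
  rw [← intervalIntegral.integral_add_adjacent_intervals (b := (1 / 2 : ℝ))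
    (hc.intervalIntegrable _ _) (hc.intervalIntegrable _ _), add_im, hleft]
  ring

/-- The count away from the heights of the zeros. -/
theorem exists_count_clean : ∃ C, 0 ≤ C ∧ ∀ (K : Type u) [Field K] [NumberField K] (T : ℝ),
    2 ≤ T → (∀ ρ, xiFun K ρ = 0 → |ρ.im| ≠ T) →
      |(zeroTotal K T : ℝ) - zMain K T| ≤ C * height K T := by
  obtain ⟨A, hA, hhor⟩ := exists_horizontal_xiLog.{u}
  refine ⟨70 + 2 * eulerConst 2 + 2 * A, by linarith [eulerConst_nonneg 2],
    fun K _ _ T hT hord => ?_⟩
  have hT0 : 0 ≤ T := by linarith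
  have hpos : ∀ ρ, xiFun K ρ = 0 → ρ.im ≠ T := fun ρ h e =>
    hord ρ h (by rw [e, abs_of_nonneg hT0])
  have hneg : ∀ ρ, xiFun K ρ = 0 → ρ.im ≠ -T := fun ρ h e =>
    hord ρ h (by rw [e, abs_neg, abs_of_nonneg hT0])
  have hbox := congrArg Complex.im (boxInt_xiLog K hT0 hord)
  have hlow : (∫ u in (1 / 2 : ℝ)..2, xiLog K ((u : ℂ) + ((-T : ℝ) : ℂ) * I)).im =
      -(∫ u in (1 / 2 : ℝ)..2, xiLog K ((u : ℂ) + T * I)).im := by
    rw [← Complex.conj_im, ← intervalIntegral.intervalIntegral_conj]
    congr 1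
    refine intervalIntegral.integral_congr fun u _ => ?_
    rw [← xiLog_conj]
    simp
  simp only [boxInt, add_im, sub_im, mul_im, I_re, I_im, zero_mul, one_mul, zero_add,
    vertical_left K, horizontal_double K hpos, horizontal_double K hneg, hlow] at hbox
  simp only [mul_re, re_ofNat, im_ofNat, ofReal_re, ofReal_im, natCast_re, natCast_im, mul_im,
    I_re, I_im, mul_zero, mul_one, zero_mul, sub_zero, add_zero, zero_add] at hbox
  have hv := abs_vertical_xiLog_le K hT
  have h1 := hhor K T hT hpos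
  have e := zMain_eq K T
  have hn := mul_le_mul_of_nonneg_left (degree_le_height K T).2
    (show 0 ≤ 70 + 2 * eulerConst 2 by linarith [eulerConst_nonneg 2])
  have hb : |π * ((zeroTotal K T : ℝ) - zMain K T)| ≤
      (70 + 2 * eulerConst 2 + 2 * A) * height K T := by
    rw [mul_sub, e, add_mul, mul_assoc 2]
    rw [abs_le] at hv h1 ⊢
    constructor <;> linarith
  rw [abs_mul, abs_of_pos Real.pi_pos] at hb
  exact (le_mul_of_one_le_left (abs_nonneg _) (by linarith [Real.pi_gt_three])).trans hb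

/-- The main term varies slowly. -/
theorem zMain_near {S T : ℝ} (hS : 2 ≤ S) (hST : S ≤ T) (hT : T ≤ S + 1) :
    |zMain K T - zMain K S| ≤ 3 * height K S := by
  have hD := discLog_nonneg K
  obtain ⟨hn1, hnh⟩ := degree_le_height K S
  have hd : ∀ x ∈ Icc S T, HasDerivWithinAt (fun u : ℝ => π * zMain K u)
      (discLog K + finrank ℚ K * Real.log (x / (2 * π))) (Icc S T) x := fun x hx => by
    have hx0 : 0 < x := by linarith [hx.1]
    have h1 := (hasDerivAt_id' x).div_const (2 * π)
    have h2 := ((hasDerivAt_id' x).mul_const (discLog K)).add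
      ((((hasDerivAt_id' x).mul (h1.log (div_ne_zero hx0.ne' (by positivity)))).sub
        (hasDerivAt_id' x)).const_mul (finrank ℚ K : ℝ))
    refine ((h2.congr_deriv ?_).congr_of_eventuallyEq ?_).hasDerivWithinAt
    · field_simp
      ring
    · exact Eventually.of_forall fun u => zMain_eq K u
  have hb : ∀ x ∈ Icc S T,
      ‖discLog K + finrank ℚ K * Real.log (x / (2 * π))‖ ≤ 3 * height K S := fun x hx => by
    have hx0 : 0 < x := by linarith [hx.1]
    have hup : Real.log (x / (2 * π)) ≤ Real.log (|S| + 3) := by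
      refine Real.log_le_log (by positivity) ?_
      rw [abs_of_nonneg (by linarith), div_le_iff₀ (by positivity)]
      nlinarith [Real.pi_gt_three, hx.2]
    have hlo : -3 ≤ Real.log (x / (2 * π)) := by
      rw [Real.log_div hx0.ne' (by positivity)]
      have a := Real.log_nonneg (show 1 ≤ x by linarith [hx.1])
      have b := (Real.log_le_log (by positivity)
        (show 2 * π ≤ (2 : ℝ) ^ 3 by linarith [Real.pi_le_four]))
      rw [Real.log_pow] at b
      push_cast at b
      nlinarith [Real.log_two_lt_d9]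
    have a1 := mul_le_mul_of_nonneg_left hup (Nat.cast_nonneg (finrank ℚ K) : (0 : ℝ) ≤ _)
    have a2 := mul_le_mul_of_nonneg_left hlo (Nat.cast_nonneg (finrank ℚ K) : (0 : ℝ) ≤ _)
    have e : height K S = 1 + discLog K + finrank ℚ K * Real.log (|S| + 3) := rfl
    rw [Real.norm_eq_abs, abs_le]
    constructor <;> linarith
  have := (convex_Icc S T).norm_image_sub_le_of_norm_hasDerivWithin_le hd hb
    (left_mem_Icc.2 hST) (right_mem_Icc.2 hST)
  rw [← mul_sub, Real.norm_eq_abs, Real.norm_eq_abs, abs_mul, abs_of_pos Real.pi_pos,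
    abs_of_nonneg (by linarith : 0 ≤ T - S)] at this
  exact (le_mul_of_one_le_left (abs_nonneg _) (by linarith [Real.pi_gt_three])).trans
    (this.trans (mul_le_of_le_one_right (by linarith [one_le_height K S]) (by linarith)))

/-- A height just above `T` without zeros, and the same count. -/
theorem exists_clean_height (T : ℝ) :
    ∃ T', T < T' ∧ T' < T + 1 ∧ (∀ ρ, xiFun K ρ = 0 → |ρ.im| ≠ T') ∧
      zeroTotal K T' = zeroTotal K T := by
  obtain ⟨A, hA⟩ : ∃ A : Set ℝ, A = (fun ρ : ℂ => |ρ.im|) '' stripZeros K (T + 1) := ⟨_, rfl⟩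
  have hAf : A.Finite := hA ▸ (finite_stripZeros K _).image _
  have hev : ∀ᶠ x in 𝓝[>] T, ∀ a ∈ A, a ≤ T ∨ x < a := by
    rw [hAf.eventually_all]
    intro a _
    rcases le_or_gt a T with ha | ha
    · exact Eventually.of_forall fun _ => Or.inl ha
    · exact ((eventually_lt_nhds ha).filter_mono nhdsWithin_le_nhds).mono fun _ hx => Or.inr hx
  obtain ⟨T', ⟨hgap, hT'⟩, hgt⟩ := ((hev.and ((eventually_lt_nhds (show T < T + 1 by linarith)
    ).filter_mono nhdsWithin_le_nhds)).and self_mem_nhdsWithin).exists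
  replace hgt : T < T' := hgt
  refine ⟨T', hgt, hT', fun ρ hρ e => ?_, ?_⟩
  · have hm : |ρ.im| ∈ A := hA ▸
      ⟨ρ, (mem_stripZeros_iff K).2 ⟨hρ, by rw [e]; linarith⟩, rfl⟩
    rcases hgap _ hm with h1 | h1 <;> linarith
  · refine le_antisymm ?_ (zeroTotal_mono K hgt.le)
    rw [zeroTotal_eq_sum, zeroTotal_eq_sum]
    refine Finset.sum_le_sum_of_subset fun ρ hρ => ?_
    rw [Set.Finite.mem_toFinset] at hρ ⊢
    obtain ⟨h1, h2, h3, h4⟩ := hρ
    refine ⟨h1, h2, h3, ?_⟩
    by_contra hlt
    have hm : |ρ.im| ∈ A := hA ▸ ⟨ρ, ⟨h1, h2, h3, by linarith⟩, rfl⟩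
    rcases hgap _ hm with h6 | h6 <;> linarith

/-- **The formula of Riemann and von Mangoldt for `ζ_K`.** -/
theorem exists_zeroTotal : ∃ C, 0 ≤ C ∧ ∀ (K : Type u) [Field K] [NumberField K] (T : ℝ),
    2 ≤ T → |(zeroTotal K T : ℝ) - zMain K T| ≤ C * height K T := by
  obtain ⟨C, hC, h⟩ := exists_count_clean.{u}
  refine ⟨2 * C + 3, by positivity, fun K _ _ T hT => ?_⟩
  obtain ⟨T', h1, h2, hord, hN⟩ := exists_clean_height K T
  have h3 := h K T' (by linarith) hord
  rw [hN] at h3
  have h4 := zMain_near K hT h1.le h2.le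
  have h5 := mul_le_mul_of_nonneg_left (height_le_two_mul K (s := T') (t := T) (Or.inl (by
    rw [abs_of_nonneg (by linarith), abs_of_nonneg (by linarith)]
    linarith))) hC
  have h6 := abs_sub_le (zeroTotal K T : ℝ) (zMain K T') (zMain K T)
  linarith

/-- **Few zeros in a unit window.** -/
theorem exists_zeroTotal_window : ∃ C, 0 ≤ C ∧ ∀ (K : Type u) [Field K] [NumberField K] (T : ℝ),
    0 ≤ T → (zeroTotal K (T + 1) : ℝ) - zeroTotal K T ≤ C * height K T := by
  obtain ⟨C, hC, h⟩ := exists_zeroTotal.{u}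
  refine ⟨3 * C + 3, by positivity, fun K _ _ T hT => ?_⟩
  have hh := one_le_height K T
  rcases le_total 2 T with hT2 | hT2
  · have a := abs_le.1 (h K T hT2)
    have b := abs_le.1 (h K (T + 1) (by linarith))
    have c := abs_le.1 (zMain_near K hT2 (show T ≤ T + 1 by linarith) le_rfl)
    have d := mul_le_mul_of_nonneg_left (height_le_two_mul K (s := T + 1) (t := T) (Or.inl (by
      rw [abs_of_nonneg (by linarith), abs_of_nonneg hT]
      linarith))) hC
    linarith [a.1, b.2, c.2]
  · -- below the range of the formula everything is at most `N (3)`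
    have b := abs_le.1 (h K 3 (by norm_num))
    have m : (zeroTotal K (T + 1) : ℝ) ≤ zeroTotal K 3 :=
      Nat.cast_le.2 (zeroTotal_mono K (by linarith))
    have d := mul_le_mul_of_nonneg_left (height_le_two_mul K (s := 3) (t := T) (Or.inl (by
      rw [abs_of_nonneg (by norm_num : (0 : ℝ) ≤ 3)]
      linarith [abs_nonneg T]))) hC
    have e := zMain_eq K 3
    have e1 : Real.log (3 / (2 * π)) ≤ 0 :=
      Real.log_nonpos (by positivity) (by
        rw [div_le_one (by positivity)]; linarith [Real.pi_gt_three])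
    have e2 : zMain K 3 ≤ height K T := by
      have hD : discLog K ≤ height K T := by
        rw [height, ← discLog]
        nlinarith [one_le_log T, (degree_le_height K T).1]
      have h0 : (finrank ℚ K : ℝ) * (3 * Real.log (3 / (2 * π)) - 3) ≤ 0 :=
        mul_nonpos_of_nonneg_of_nonpos (Nat.cast_nonneg _) (by linarith)
      nlinarith [Real.pi_gt_three, discLog_nonneg K]
    nlinarith [b.2, (Nat.cast_nonneg (zeroTotal K T) : (0 : ℝ) ≤ _)]

/-- For large `T` the main term wins, whatever the field. -/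
theorem zMain_ge {T : ℝ} (hT : 4096 ≤ T) : T / (2 * π) * height K T ≤ zMain K T := by
  have hD := discLog_nonneg K
  have hn := (degree_le_height K T).1
  have e := zMain_eq K T
  have hlT : 83 / 10 ≤ Real.log T := by
    refine le_trans ?_ (Real.log_le_log (by norm_num) hT)
    rw [show (4096 : ℝ) = 2 ^ 12 by norm_num, Real.log_pow]
    push_cast
    linarith [Real.log_two_gt_d9]
  have hlog : Real.log (|T| + 3) ≤ Real.log 2 + Real.log T := by
    rw [← Real.log_mul two_ne_zero (by linarith), abs_of_nonneg (by linarith)]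
    exact Real.log_le_log (by linarith) (by linarith)
  have hpi : Real.log (2 * π) ≤ 2 := by
    rw [Real.log_le_iff_le_exp (by positivity), show (2 : ℝ) = 1 + 1 by norm_num, Real.exp_add]
    nlinarith [Real.exp_one_gt_d9, Real.pi_lt_d2]
  rw [Real.log_div (by linarith) (by positivity)] at e
  have h2 : height K T / 2 ≤ discLog K +
      finrank ℚ K * (Real.log T - Real.log (2 * π) - 1) := by
    rw [height, ← discLog]
    have a := mul_le_mul_of_nonneg_left hlog (zero_le_one.trans hn)
    have b := mul_le_mul_of_nonneg_left (show (1 : ℝ) / 2 + Real.log 2 / 2 + Real.log T / 2 ≤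
      Real.log T - Real.log (2 * π) - 1 by linarith [Real.log_two_lt_d9]) (zero_le_one.trans hn)
    linarith
  have h3 := mul_le_mul_of_nonneg_left h2 (show 0 ≤ T by linarith)
  rw [div_mul_eq_mul_div, div_le_iff₀ (by positivity)]
  linarith

/-- **An absolute height below which every `ζ_K` has a zero.** -/
theorem exists_absolute_zero : ∃ T₀ : ℝ, ∀ (K : Type u) [Field K] [NumberField K],
    ∃ ρ : ℂ, cleared K ρ = 0 ∧ 0 < ρ.re ∧ ρ.re < 1 ∧ |ρ.im| ≤ T₀ := by
  obtain ⟨C, hC, h⟩ := exists_zeroTotal.{u}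
  refine ⟨max 4096 (2 * π * (C + 1)), fun K _ _ => ?_⟩
  obtain ⟨T, hT⟩ : ∃ T, T = max 4096 (2 * π * (C + 1)) := ⟨_, rfl⟩
  have hT1 : 4096 ≤ T := hT ▸ le_max_left _ _
  have hT2 : 2 * π * (C + 1) ≤ T := hT ▸ le_max_right _ _
  rw [← hT]
  have h1 := abs_le.1 (h K T (by linarith))
  have h2 := zMain_ge K hT1
  have h3 : C + 1 ≤ T / (2 * π) := by
    rw [le_div_iff₀ (by positivity)]
    linarith
  have hl := one_le_height K T
  have h4 := mul_le_mul_of_nonneg_right h3 (zero_le_one.trans hl)
  have hN : (zeroTotal K T : ℝ) ≠ 0 := by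
    have : 0 < (zeroTotal K T : ℝ) := by linarith [h1.1]
    exact this.ne'
  rw [Nat.cast_ne_zero, zeroTotal_eq_sum] at hN
  obtain ⟨ρ, hρ, -⟩ := Finset.exists_ne_zero_of_sum_ne_zero hN
  obtain ⟨h0, h5, h6, h7⟩ := (Set.Finite.mem_toFinset _).1 hρ
  exact ⟨ρ, h0, h5, h6, h7⟩

theorem tendsto_zeroTotal : Tendsto (fun T : ℝ => (zeroTotal K T : ℝ)) atTop atTop := by
  obtain ⟨C, hC, h⟩ := exists_zeroTotal.{u}
  refine tendsto_atTop_mono' atTop (f₁ := fun T : ℝ => T / (2 * π) - C) ?_
    (tendsto_atTop_add_const_right _ _ (tendsto_id.atTop_div_const (by positivity)))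
  filter_upwards [eventually_ge_atTop 4096, eventually_ge_atTop (2 * π * C)] with T hT hTC
  have h1 := abs_le.1 (h K T (by linarith))
  have h2 := zMain_ge K hT
  have hl := one_le_height K T
  have h3 : C ≤ T / (2 * π) := by
    rw [le_div_iff₀ (by positivity)]
    linarith
  nlinarith [h1.1]

/-- **`ζ_K` has infinitely many zeros in the strip.** -/
theorem infinite_stripZeros :
    {ρ : ℂ | cleared K ρ = 0 ∧ 0 < ρ.re ∧ ρ.re < 1}.Infinite := fun hfin => by
  have hb : ∀ T, (zeroTotal K T : ℝ) ≤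
      (∑ ρ ∈ hfin.toFinset, analyticOrderNatAt (cleared K) ρ : ℕ) := fun T => by
    rw [zeroTotal_eq_sum]
    refine Nat.cast_le.2 (Finset.sum_le_sum_of_subset fun ρ hρ => ?_)
    rw [Set.Finite.mem_toFinset] at hρ ⊢
    exact ⟨hρ.1, hρ.2.1, hρ.2.2.1⟩
  obtain ⟨T, hT⟩ := ((tendsto_zeroTotal K).eventually_gt_atTop _).exists
  exact absurd (hb T) (not_le.2 hT)

end FA.DedekindZeroCount

end
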