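import Fermat.Agent.DedekindZeroFree.Main
import Fermat.Agent.HardyZeros.Decay
import Fermat.Agent.Levinson.Factor

/-!
# The zeros of the completed zeta function of a number field

With `E` the continuation of `(s - 1) ζ_K` and `Δ s = |d| ^ (s/2) Γℝ s ^ r₁ Γℂ s ^ r₂` the entire
`ξ` is `s E s Δ s` on `re s > 0`, `ξ (1 - s) = ξ s` and `ξ (conj s) = conj (ξ s)`; its zeros lie
in `0 < re s < 1` and are those of `E` there, with the same orders.
-/

set_option autoImplicit false
set_option linter.style.haveILetI false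

noncomputable section

universe u

open NumberField InfinitePlace Module Complex Filter Topology Set
open FA.HeckeBS FA.HeckeFE FA.DedekindZF
open scoped Real Classical ComplexConjugate

namespace FA.DedekindZeroCount

variable (K : Type u) [Field K] [NumberField K]

/-- The continuation of `(s - 1) ζ_K`. -/
def cleared : ℂ → ℂ := Classical.choose (FA.ZetaDivisibility.exists_zeta_cleared K)

theorem differentiable_cleared : Differentiable ℂ (cleared K) :=
  (Classical.choose_spec (FA.ZetaDivisibility.exists_zeta_cleared K)).1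

theorem cleared_spec {s : ℂ} (hs : 1 < s.re) : cleared K s = (s - 1) * dedekindZeta K s :=
  (Classical.choose_spec (FA.ZetaDivisibility.exists_zeta_cleared K)).2.1 s hs

theorem cleared_ne_zero_right {s : ℂ} (hs : 1 ≤ s.re) : cleared K s ≠ 0 :=
  (Classical.choose_spec (FA.ZetaDivisibility.exists_zeta_cleared K)).2.2 s hs

/-- Any continuation is this one. -/
theorem eq_cleared {E : ℂ → ℂ} (hE : Differentiable ℂ E)
    (hEL : ∀ s : ℂ, 1 < s.re → E s = (s - 1) * dedekindZeta K s) : E = cleared K :=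
  FA.ZetaDivisibility.eq_of_eqOn_halfPlane hE (differentiable_cleared K) fun z hz => by
    rw [hEL z hz, cleared_spec K hz]

theorem gamFac_ne_zero {s : ℂ} (hs : 0 < s.re) : gamFac K s ≠ 0 := by
  have h1 : 0 < (s + 1).re := by simp; linarith
  rw [gamFac, ← Gammaℝ_mul_Gammaℝ_add_one]
  exact mul_ne_zero (cpow_ne_zero_iff.2 (Or.inl (discr_natAbs_ne_zero K)))
    (mul_ne_zero (pow_ne_zero _ (Gammaℝ_ne_zero_of_re_pos hs))
      (pow_ne_zero _ (mul_ne_zero (Gammaℝ_ne_zero_of_re_pos hs) (Gammaℝ_ne_zero_of_re_pos h1))))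

theorem ginv_mul_gamFac {s : ℂ} (hs : 0 < s.re) : ginv K s * gamFac K s = 1 := by
  have h1 : 0 < (s + 1).re := by simp; linarith
  have hG := Gammaℝ_ne_zero_of_re_pos hs
  have hG1 := Gammaℝ_ne_zero_of_re_pos h1
  have hd : (((discr K).natAbs : ℕ) : ℂ) ^ (s / 2) ≠ 0 :=
    cpow_ne_zero_iff.2 (Or.inl (discr_natAbs_ne_zero K))
  rw [gamFac, ginv, ← Gammaℝ_mul_Gammaℝ_add_one, cpow_neg, inv_pow, mul_pow, mul_pow, inv_pow,
    inv_pow]
  field_simp

/-- `ξ = s E Δ` on the half plane. -/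
theorem xi_eq_mul {s : ℂ} (hs : 0 < s.re) : xiFun K s = s * cleared K s * gamFac K s := by
  rw [mul_cleared_eq K (differentiable_cleared K) (fun z hz => cleared_spec K hz) s, mul_assoc,
    ginv_mul_gamFac K hs, mul_one]

theorem xi_ne_zero_right {s : ℂ} (hs : 1 ≤ s.re) : xiFun K s ≠ 0 := by
  rw [xi_eq_mul K (by linarith)]
  exact mul_ne_zero (mul_ne_zero (fun h => by simp [h] at hs; linarith)
    (cleared_ne_zero_right K hs)) (gamFac_ne_zero K (by linarith))

/-- **The zeros of `ξ` lie in the open strip.** -/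
theorem xi_zero_strip {s : ℂ} (h : xiFun K s = 0) : 0 < s.re ∧ s.re < 1 := by
  refine ⟨?_, lt_of_not_ge fun h1 => xi_ne_zero_right K h1 h⟩
  by_contra hc
  exact xi_ne_zero_right K (s := 1 - s) (by simp; linarith) (by rw [xiFun_one_sub, h])

theorem natCast_cpow_conj (n : ℕ) (s : ℂ) : (n : ℂ) ^ conj s = conj ((n : ℂ) ^ s) := by
  have h : (n : ℂ).arg ≠ π := by
    rw [natCast_arg]
    exact Real.pi_ne_zero.symm
  rw [cpow_conj _ _ h, conj_natCast]

theorem gamFac_conj (s : ℂ) : gamFac K (conj s) = conj (gamFac K s) := by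
  rw [gamFac, gamFac, ← Gammaℝ_mul_Gammaℝ_add_one, ← Gammaℝ_mul_Gammaℝ_add_one, map_mul, map_mul,
    map_pow, map_pow, map_mul, show conj s + 1 = conj (s + 1) by simp, FA.HardyZeros.conj_Gammaℝ,
    FA.HardyZeros.conj_Gammaℝ, ← natCast_cpow_conj]
  simp [map_div₀, Complex.conj_ofNat]

/-- `ξ` is real on the real axis. -/
theorem xi_conj (s : ℂ) : xiFun K (conj s) = conj (xiFun K s) := by
  have hd : Differentiable ℂ fun z => conj (xiFun K (conj z)) := fun z => by
    have h := (differentiable_xiFun K (conj z)).conj_conj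
    rwa [conj_conj] at h
  have h := congrFun (FA.ZetaDivisibility.eq_of_eqOn_halfPlane hd (differentiable_xiFun K)
    fun z hz => by
      rw [xi_eq_mul K (show 0 < (conj z).re by rw [conj_re]; linarith),
        xi_eq_mul K (show 0 < z.re by linarith),
        cleared_conj (differentiable_cleared K) (fun w hw => cleared_spec K hw) z, gamFac_conj]
      simp) (conj s)
  simp only [conj_conj] at h
  exact h.symm

/-- `ξ'/ξ`. -/
def xiLog (s : ℂ) : ℂ := deriv (xiFun K) s / xiFun K s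

theorem xiLog_one_sub (s : ℂ) : xiLog K (1 - s) = -xiLog K s := by
  have h : deriv (fun z => xiFun K (1 - z)) s = deriv (xiFun K) s :=
    congrArg (fun f => deriv f s) (funext fun z => xiFun_one_sub K z)
  rw [deriv_comp_const_sub] at h
  rw [xiLog, xiLog, xiFun_one_sub, ← h]
  ring

theorem xiLog_conj (s : ℂ) : xiLog K (conj s) = conj (xiLog K s) := by
  have he : xiFun K = conj ∘ xiFun K ∘ conj := funext fun z => by
    simp [Function.comp, xi_conj]
  have h1 := congrFun (deriv_conj_conj (𝕜 := ℂ) (f := xiFun K)) (conj s)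
  rw [← he] at h1
  rw [xiLog, xiLog, h1, xi_conj, map_div₀]
  simp

/-- **Reflection in the critical line.** -/
theorem xiLog_reflect (s : ℂ) : xiLog K (1 - conj s) = -conj (xiLog K s) := by
  rw [xiLog_one_sub, xiLog_conj]

/-- The zeros of `E` with `0 < re < 1` and `|im| ≤ T`. -/
def stripZeros (T : ℝ) : Set ℂ := {ρ | cleared K ρ = 0 ∧ 0 < ρ.re ∧ ρ.re < 1 ∧ |ρ.im| ≤ T}

theorem mem_stripZeros_iff {T : ℝ} {ρ : ℂ} :
    ρ ∈ stripZeros K T ↔ xiFun K ρ = 0 ∧ |ρ.im| ≤ T := by
  constructor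
  · rintro ⟨h, h0, -, h2⟩
    exact ⟨by rw [xi_eq_mul K h0, h, mul_zero, zero_mul], h2⟩
  · rintro ⟨h, h2⟩
    obtain ⟨h0, h1⟩ := xi_zero_strip K h
    rw [xi_eq_mul K h0, mul_eq_zero, mul_eq_zero] at h
    rcases h with (h | h) | h
    · simp [h] at h0
    · exact ⟨h, h0, h1, h2⟩
    · exact absurd h (gamFac_ne_zero K h0)

theorem order_xi_ne_top (z : ℂ) : analyticOrderAt (xiFun K) z ≠ ⊤ := fun h =>
  xi_ne_zero_right K (show (1 : ℝ) ≤ ((2 : ℂ)).re by norm_num)
    ((analyticOnNhd_univ_iff_differentiable.2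
      (differentiable_xiFun K)).eqOn_zero_of_preconnected_of_eventuallyEq_zero isPreconnected_univ
        (mem_univ z) (analyticOrderAt_eq_top.1 h) (mem_univ (2 : ℂ)))

theorem analyticOrderNatAt_xi {s : ℂ} (hs : 0 < s.re) :
    analyticOrderNatAt (xiFun K) s = analyticOrderNatAt (cleared K) s := by
  have hV : {z : ℂ | 0 < z.re} ∈ 𝓝 s :=
    (isOpen_lt continuous_const continuous_re).mem_nhds hs
  have hE := (differentiable_cleared K).analyticAt s
  have hu : AnalyticAt ℂ (fun z => z * (ginv K z)⁻¹) s :=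
    analyticAt_id.mul (((differentiable_ginv K).analyticAt s).inv
      (left_ne_zero_of_mul_eq_one (ginv_mul_gamFac K hs)))
  have he : xiFun K =ᶠ[𝓝 s] (fun z => z * (ginv K z)⁻¹) * cleared K := by
    filter_upwards [hV] with z hz
    rw [Pi.mul_apply, xi_eq_mul K hz, eq_inv_of_mul_eq_one_right (ginv_mul_gamFac K hz)]
    ring
  have h0 : s * (ginv K s)⁻¹ ≠ 0 := mul_ne_zero (fun h => by simp [h] at hs)
    (inv_ne_zero (left_ne_zero_of_mul_eq_one (ginv_mul_gamFac K hs)))
  rw [analyticOrderNatAt, analyticOrderAt_congr he, analyticOrderAt_mul hu hE,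
    hu.analyticOrderAt_eq_zero.2 h0, zero_add, ← analyticOrderNatAt]

/-- Finitely many zeros up to each height. -/
theorem finite_stripZeros (T : ℝ) : (stripZeros K T).Finite :=
  (FA.Levinson.finite_zeros_compact isOpen_univ
    ((isCompact_Icc.reProdIm isCompact_Icc : IsCompact (Icc (0 : ℝ) 1 ×ℂ Icc (-T) T)))
    (subset_univ _) (differentiable_xiFun K).differentiableOn
    fun z _ => order_xi_ne_top K z).subset fun _ h =>
      ⟨mem_reProdIm.2 ⟨⟨h.2.1.le, h.2.2.1.le⟩, abs_le.1 h.2.2.2⟩,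
        ((mem_stripZeros_iff K).1 h).1⟩

/-- `N_K T`: the zeros in the strip with `|im| ≤ T`, with multiplicity. -/
def zeroTotal (T : ℝ) : ℕ := ∑ᶠ ρ ∈ stripZeros K T, analyticOrderNatAt (cleared K) ρ

theorem zeroTotal_eq_sum (T : ℝ) :
    zeroTotal K T = ∑ ρ ∈ (finite_stripZeros K T).toFinset, analyticOrderNatAt (cleared K) ρ :=
  finsum_mem_eq_finite_toFinset_sum _ _

theorem zeroTotal_mono {S T : ℝ} (h : S ≤ T) : zeroTotal K S ≤ zeroTotal K T := by
  rw [zeroTotal_eq_sum, zeroTotal_eq_sum]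
  exact Finset.sum_le_sum_of_subset (Set.Finite.toFinset_subset_toFinset.2
    fun ρ ⟨a, b, c, d⟩ => ⟨a, b, c, d.trans h⟩)

/-- In the closed strip `s = 0` is the only other possible zero of `E`. -/
theorem closed_strip_zero {ρ : ℂ} (h : cleared K ρ = 0) (h0 : 0 ≤ ρ.re) (hne : ρ ≠ 0) :
    0 < ρ.re ∧ ρ.re < 1 := by
  refine ⟨lt_of_le_of_ne h0 fun he => ?_, lt_of_not_ge fun h1 => cleared_ne_zero_right K h1 h⟩
  have hx : xiFun K ρ ≠ 0 := fun hx => by
    have := (xi_zero_strip K hx).1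
    linarith
  have e := mul_cleared_eq K (differentiable_cleared K) (fun z hz => cleared_spec K hz) ρ
  rw [h, mul_zero, eq_comm, mul_eq_zero] at e
  have him : ρ.im ≠ 0 := fun hi => hne (Complex.ext he.symm hi)
  have hG : ∀ z : ℂ, z.im ≠ 0 → (Gammaℝ z)⁻¹ ≠ 0 := fun z hz => by
    refine inv_ne_zero fun hz0 => ?_
    obtain ⟨n, hn⟩ := Gammaℝ_eq_zero_iff.1 hz0
    exact hz (by rw [hn]; simp)
  refine (e.resolve_left hx |> fun hg => ?_)
  rw [ginv, mul_eq_zero] at hg
  rcases hg with hg | hg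
  · exact absurd hg (cpow_ne_zero_iff.2 (Or.inl (discr_natAbs_ne_zero K)))
  · exact absurd hg (mul_ne_zero (pow_ne_zero _ (hG ρ him))
      (pow_ne_zero _ (mul_ne_zero (hG ρ him) (hG (ρ + 1) (by simpa using him)))))

end FA.DedekindZeroCount

end
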