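import Fermat.Agent.DedekindZeroCount.Logs

/-!
# The argument principle and the edges of the rectangle for a number field

The integral of `ξ'/ξ` round `[-1, 2] × [-T, T]` counts the zeros; on `re s = 2` the primitive is
explicit up to `O (n)`, and on `im s = t`, `1/2 ≤ re s ≤ 2` the argument of `(s - 1) ζ_K` changes
by `O (1 + log |d| + n log (|t| + 3))`, uniformly in the field.
-/

set_option autoImplicit false
set_option linter.style.haveILetI false

noncomputable section

universe u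

open NumberField InfinitePlace Module Complex Filter Topology Set MeasureTheory Metric
open FA.HeckeBS FA.HeckeFE FA.DedekindZF
open FA.ExplicitFormula (boxInt boxInt_congr boxInt_add boxInt_eq_zero)
open FA.RiemannMangoldt (rootProd rootProd_ne_zero hasDerivAt_rootProd logGammaReal)
open FA.LevinsonThird (continuousAt_logDeriv boxInt_sum_poles)
open scoped Real Classical ComplexConjugate

namespace FA.DedekindZeroCount

variable (K : Type u) [Field K] [NumberField K]

theorem continuousAt_xiLog {s : ℂ} (h : xiFun K s ≠ 0) : ContinuousAt (xiLog K) s :=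
  continuousAt_logDeriv isOpen_univ (differentiable_xiFun K).differentiableOn (mem_univ s) h

/-- **The argument principle.** -/
theorem boxInt_xiLog {T : ℝ} (hT : 0 ≤ T) (hord : ∀ ρ, xiFun K ρ = 0 → |ρ.im| ≠ T) :
    boxInt (xiLog K) (-1) 2 T = 2 * π * I * zeroTotal K T := by
  obtain ⟨C, hC⟩ : ∃ C : Set ℂ, C = Icc (-1 : ℝ) 2 ×ℂ Icc (-T) T := ⟨_, rfl⟩
  have hd := differentiable_xiFun K
  obtain ⟨Z, h, hh, he, hZK, hne, hcount⟩ := FA.Levinson.exists_compact_factor isOpen_univ
    (hC ▸ isCompact_Icc.reProdIm isCompact_Icc : IsCompact C) (subset_univ _)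
    hd.differentiableOn fun z _ => order_xi_ne_top K z
  have hh' : Differentiable ℂ h := fun z => hh.differentiableAt univ_mem
  have hZ0 : ∀ ρ ∈ Z, xiFun K ρ = 0 := fun ρ hρ => by
    rw [he]
    refine mul_eq_zero_of_left ?_ _
    simp only [rootProd, Multiset.prod_eq_zero_iff, Multiset.mem_map]
    exact ⟨ρ, hρ, sub_self ρ⟩
  have hZin : ∀ ρ ∈ Z, -1 < ρ.re ∧ ρ.re < 2 ∧ |ρ.im| < T := fun ρ hρ => by
    obtain ⟨h0, h1⟩ := xi_zero_strip K (hZ0 ρ hρ)
    have h2 := hZK ρ hρ
    rw [hC, mem_reProdIm] at h2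
    exact ⟨by linarith, by linarith, lt_of_le_of_ne (abs_le.2 h2.2) (hord ρ (hZ0 ρ hρ))⟩
  obtain ⟨hc1, hi1⟩ := boxInt_sum_poles (Φ := fun _ => (1 : ℂ)) (differentiable_const _) hT Z hZin
  have hedge : ∀ s ∈ FA.ExplicitFormula.boxEdges (-1) 2 T,
      s ∈ C ∧ ∀ ρ ∈ Z, s ≠ ρ := fun s hs => by
    refine ⟨?_, fun ρ hρ => ?_⟩
    · obtain ⟨h1, h2, -⟩ := hs
      rw [uIcc_of_le (by norm_num)] at h1
      rw [uIcc_of_le (by linarith)] at h2
      rw [hC, mem_reProdIm]
      exact ⟨h1, h2⟩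
    · obtain ⟨a1, a2, a3⟩ := hZin ρ hρ
      exact FA.ExplicitFormula.interior_not_edge a1 a2 a3.ne hT hs
  have hH : ∀ s ∈ C, DifferentiableAt ℂ (fun z => deriv h z / h z) s := fun s hs =>
    ((hh'.analyticAt s).deriv.differentiableAt).div (hh' s) (hne s hs)
  have heq : boxInt (xiLog K) (-1) 2 T = boxInt (fun s =>
      (Z.map fun w => (1 : ℂ) / (s - w)).sum + deriv h s / h s) (-1) 2 T := by
    refine boxInt_congr fun s hs => ?_
    obtain ⟨hsC, hsne⟩ := hedge s hs
    have hd' : deriv (xiFun K) s =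
        rootProd Z s * (Z.map fun ρ => (s - ρ)⁻¹).sum * h s + rootProd Z s * deriv h s := by
      rw [show xiFun K = fun w => rootProd Z w * h w from funext he]
      exact ((hasDerivAt_rootProd hsne).mul (hh' s).hasDerivAt).deriv
    have n1 := rootProd_ne_zero hsne
    have n2 := hne s hsC
    simp only [one_div]
    rw [xiLog, hd', he s]
    field_simp
  have hmemC : ∀ s : ℂ, s.re ∈ Icc (-1 : ℝ) 2 → s.im ∈ Icc (-T) T → s ∈ C := fun s h1 h2 => by
    rw [hC, mem_reProdIm]
    exact ⟨h1, h2⟩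
  rw [heq, boxInt_add hc1 fun s hs => (hH s (hedge s hs).1).continuousAt, hi1,
    boxInt_eq_zero (by norm_num) hT fun s h1 h2 => hH s (hmemC s h1 h2), add_zero]
  congr 1
  rw [Multiset.map_const', Multiset.sum_replicate, nsmul_eq_mul, mul_one, Nat.cast_inj,
    zeroTotal_eq_sum]
  rw [← Multiset.sum_count_eq_card (s := (finite_stripZeros K T).toFinset) fun ρ hρ => ?_]
  · refine Finset.sum_congr rfl fun ρ hρ => ?_
    rw [Set.Finite.mem_toFinset] at hρ
    obtain ⟨-, h0, h1, h2⟩ := hρ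
    rw [← analyticOrderNatAt_xi K h0,
      hcount ρ (hmemC ρ ⟨by linarith, by linarith⟩ (abs_le.1 h2))]
  · rw [Set.Finite.mem_toFinset, mem_stripZeros_iff]
    exact ⟨hZ0 ρ hρ, (hZin ρ hρ).2.2.le⟩

theorem degree_eq : ((nrRealPlaces K + nrComplexPlaces K : ℕ) : ℝ) + nrComplexPlaces K =
    finrank ℚ K := by
  rw [← card_add_two_mul_card_eq_rank K]
  push_cast
  ring

theorem degree_le_height (t : ℝ) : 1 ≤ (finrank ℚ K : ℝ) ∧ (finrank ℚ K : ℝ) ≤ height K t :=
  ⟨Nat.one_le_cast.2 finrank_pos, finrank_le_height K t⟩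

/-- Stirling for the argument of `Γℝ`, `1/2 ≤ σ ≤ 3`. -/
theorem abs_im_logGammaReal_le {σ t : ℝ} (h1 : 1 / 2 ≤ σ) (h2 : σ ≤ 3) (ht : 2 ≤ t) :
    |(logGammaReal ((σ : ℂ) + t * I)).im - (t / 2 * Real.log (t / (2 * π)) - t / 2)| ≤ 25 := by
  have h := FA.ArgumentMean.abs_im_logGammaReal_sub_le (σ := σ) (t := t) (by linarith) (by linarith)
  have e1 : 6 * (σ / 2 + 1) ^ 2 / t ≤ 20 := by
    rw [div_le_iff₀ (by linarith)]
    nlinarith
  have e2 : (σ / 2 - 1 / 2) * (π / 2) ≤ π / 2 := mul_le_of_le_one_left (by positivity) (by linarith)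
  have e3 : -(π / 2) ≤ (σ / 2 - 1 / 2) * (π / 2) := by nlinarith [Real.pi_pos]
  rw [abs_le] at h ⊢
  constructor <;> linarith [Real.pi_le_four]

theorem abs_log_im_le (s : ℂ) : |(Complex.log s).im| ≤ 4 := by
  rw [Complex.log_im]
  exact (abs_arg_le_pi s).trans Real.pi_le_four

/-- `Im G` on a horizontal line above `2`. -/
theorem abs_im_gPart_le {u t : ℝ} (h1 : 1 / 2 ≤ u) (h2 : u ≤ 2) (ht : 2 ≤ t) :
    |(gPart K ((u : ℂ) + t * I)).im - (t / 2 * discLog K +
      finrank ℚ K * (t / 2 * Real.log (t / (2 * π)) - t / 2))| ≤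
        4 + 25 * (finrank ℚ K : ℝ) := by
  obtain ⟨M, hM⟩ : ∃ M, M = t / 2 * Real.log (t / (2 * π)) - t / 2 := ⟨_, rfl⟩
  have ga := abs_im_logGammaReal_le (σ := u) h1 (by linarith) ht
  have gb := abs_im_logGammaReal_le (σ := u + 1) (by linarith) (by linarith) ht
  rw [← hM] at ga gb ⊢
  rw [show ((u + 1 : ℝ) : ℂ) + t * I = (u : ℂ) + t * I + 1 by push_cast; ring] at gb
  have hl := abs_log_im_le ((u : ℂ) + t * I)
  have hD : ((((u : ℂ) + t * I) / 2) * (discLog K : ℂ)).im = t / 2 * discLog K := by simp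
  rw [gPart, add_im, add_im, add_im, hD, mul_im, mul_im, natCast_re, natCast_im, natCast_re,
    natCast_im, zero_mul, zero_mul, add_zero, add_zero]
  obtain ⟨a, ha⟩ : ∃ a : ℝ, a = ((nrRealPlaces K + nrComplexPlaces K : ℕ) : ℝ) := ⟨_, rfl⟩
  obtain ⟨b, hb⟩ : ∃ b : ℝ, b = (nrComplexPlaces K : ℝ) := ⟨_, rfl⟩
  have ha0 : 0 ≤ a := ha ▸ Nat.cast_nonneg _
  have hb0 : 0 ≤ b := hb ▸ Nat.cast_nonneg _
  rw [← degree_eq K, ← ha, ← hb]
  rw [abs_le] at ga gb hl ⊢
  constructor <;> linarith [mul_le_mul_of_nonneg_left ga.1 ha0, mul_le_mul_of_nonneg_left ga.2 ha0,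
    mul_le_mul_of_nonneg_left gb.1 hb0, mul_le_mul_of_nonneg_left gb.2 hb0]

theorem im_gPart_conj {s : ℂ} (hs : 0 < s.re) :
    (gPart K (conj s)).im = -(gPart K s).im := by
  have h1 : 0 < (s + 1).re := by simp; linarith
  have harg : s.arg ≠ π := fun h => by
    rw [Complex.arg_eq_pi_iff] at h
    linarith [h.1]
  rw [gPart, gPart, show conj s + 1 = conj (s + 1) by simp]
  simp only [add_im, mul_im, natCast_re, natCast_im, zero_mul, add_zero,
    FA.DirichletZeroCount.im_logGammaReal_conj hs, FA.DirichletZeroCount.im_logGammaReal_conj h1,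
    Complex.log_conj _ harg, conj_im, ofReal_re, ofReal_im, mul_zero, div_ofNat_im, zero_add]
  ring

/-- **The right edge.** -/
theorem abs_vertical_xiLog_le {T : ℝ} (hT : 2 ≤ T) :
    |(∫ v in (-T)..T, xiLog K (((2 : ℝ) : ℂ) + v * I)).re -
      (T * discLog K + finrank ℚ K * (T * Real.log (T / (2 * π)) - T))| ≤
        (70 + 2 * eulerConst 2) * finrank ℚ K := by
  obtain ⟨p, hp⟩ : ∃ p : ℝ → ℂ, p = fun v : ℝ => ((2 : ℝ) : ℂ) + v * I := ⟨_, rfl⟩
  have hre : ∀ v : ℝ, (p v).re = 2 := fun v => by simp [hp]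
  have hconj : p (-T) = conj (p T) := by simp [hp, map_ofNat]
  have hcc : Continuous fun v : ℝ => xiLog K (p v) :=
    continuous_iff_continuousAt.2 fun v => ContinuousAt.comp' (g := xiLog K)
      (continuousAt_xiLog K (xi_ne_zero_right K (by rw [hre]; norm_num)))
      (f := p) (by rw [hp]; fun_prop)
  have hcr : Continuous fun v : ℝ => (xiLog K (p v)).re := Complex.continuous_re.comp hcc
  have hG : ∀ v : ℝ, HasDerivAt (fun u : ℝ => (xiPrim K (p u)).im) ((xiLog K (p v)).re) v :=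
    fun v => by
    have h := (hasDerivAt_xiPrim K (s := p v) (by rw [hre]; norm_num)).comp v
      (by rw [hp]; exact (((hasDerivAt_id' (v : ℂ)).mul_const I).const_add _).comp_ofReal)
    refine (Complex.imCLM.hasFDerivAt.comp_hasDerivAt v h).congr_deriv ?_
    simp
  have hint := intervalIntegral.integral_eq_sub_of_hasDerivAt (fun v _ => hG v)
    (hcr.intervalIntegrable (-T) T)
  have hg := abs_im_gPart_le K (u := 2) (by norm_num) le_rfl hT
  have hgc := im_gPart_conj K (s := p T) (by rw [hre]; norm_num)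
  have hz : ∀ v : ℝ, |(logZeta K (p v)).im| ≤ finrank ℚ K * eulerConst 2 := fun v => by
    refine (abs_im_le_norm _).trans ?_
    have := norm_logZeta_le K (s := p v) (by rw [hre]; norm_num)
    rwa [hre] at this
  have hl1 := abs_le.1 (abs_log_im_le (p T - 1))
  have hl2 := abs_le.1 (abs_log_im_le (p (-T) - 1))
  have z1 := abs_le.1 (hz T)
  have z2 := abs_le.1 (hz (-T))
  have hn := (degree_le_height K T).1
  have hre' := (FA.LevinsonThird.integral_re_im (hcc.intervalIntegrable (-T) T)).1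
  simp only [hp] at hre' hint hl1 hl2 z1 z2 hgc hconj
  rw [hre', hint]
  simp only [xiPrim, add_im, hconj] at hl2 z2 ⊢
  rw [hgc]
  rw [abs_le] at hg ⊢
  constructor <;> linarith

theorem norm_cleared_le_exp {z : ℂ} (hz : z.re ∈ Icc (-4) 5) :
    ‖cleared K z‖ ≤ Real.exp (growA * height K z.im) := by
  have h := posLog_cleared_le K (differentiable_cleared K) (fun s hs => cleared_spec K hs) hz
  exact (Real.le_exp_log _).trans
    (Real.exp_le_exp.2 ((le_max_right _ _).trans h))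

theorem exp_le_norm_cleared_two (t : ℝ) :
    Real.exp (-(finrank ℚ K * eulerConst 2)) ≤ ‖cleared K (((2 : ℝ) : ℂ) + t * I)‖ := by
  have hre : ((((2 : ℝ) : ℂ)) + t * I).re = 2 := by simp
  rw [cleared_spec K (by rw [hre]; norm_num), norm_mul]
  have h := (norm_dedekindZeta_bounds (K := K) (s := ((2 : ℝ) : ℂ) + t * I)
    (by rw [hre]; norm_num)).1
  rw [hre] at h
  refine h.trans (le_mul_of_one_le_left (norm_nonneg _) ?_)
  refine le_trans ?_ (abs_re_le_norm _)
  rw [sub_re, hre]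
  norm_num

/-- **The part of `E` on a horizontal edge.** -/
theorem exists_horizontal_cleared : ∃ A, 0 ≤ A ∧ ∀ (K : Type u) [Field K] [NumberField K] (t : ℝ),
    (∀ u ∈ Icc (1 / 2 : ℝ) 2, cleared K ((u : ℂ) + t * I) ≠ 0) →
      |(∫ u in (1 / 2 : ℝ)..2, deriv (cleared K) ((u : ℂ) + t * I) /
        cleared K ((u : ℂ) + t * I)).im| ≤ A * height K t := by
  obtain ⟨A, hA, hexp⟩ := FA.RiemannMangoldt.exists_logDeriv_expansion (r₁ := (8 : ℝ) / 5)
    (r := 7 / 4) (r₂ := 3 / 2) (by norm_num) (by norm_num) (by norm_num)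
  have hgrow : 0 ≤ growA := by rw [growA]; linarith [eulerConst_nonneg 5]
  refine ⟨(2 * π + 2) * (A * (2 * growA + eulerConst 2 + 1)),
    mul_nonneg (by positivity) (mul_nonneg hA (by linarith [eulerConst_nonneg 2])),
    fun K _ _ t hne => ?_⟩
  have hd := differentiable_cleared K
  obtain ⟨hn1, hnh⟩ := degree_le_height K t
  have hh1 := one_le_height K t
  obtain ⟨s₀, hs₀⟩ : ∃ s₀ : ℂ, s₀ = ((2 : ℝ) : ℂ) + t * I := ⟨_, rfl⟩
  obtain ⟨f, hf⟩ : ∃ f : ℂ → ℂ, f = fun z => cleared K (s₀ + z) := ⟨_, rfl⟩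
  have hfd : Differentiable ℂ f := by
    rw [hf]
    exact hd.comp (differentiable_id.const_add s₀)
  have hlow : Real.exp (-(finrank ℚ K * eulerConst 2)) ≤ ‖f 0‖ := by
    simp only [hf, add_zero, hs₀]
    exact exp_le_norm_cleared_two K t
  obtain ⟨B, hB⟩ : ∃ B, B = Real.exp ((2 * growA + eulerConst 2) * height K t) := ⟨_, rfl⟩
  have hB1 : 1 ≤ B := hB ▸ Real.one_le_exp
    (mul_nonneg (by linarith [eulerConst_nonneg 2]) (by linarith))
  obtain ⟨Z, hZ, hcard, hord, hlog⟩ := hexp univ f B isOpen_univ (subset_univ _)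
    hfd.differentiableOn (norm_pos_iff.1 (lt_of_lt_of_le (Real.exp_pos _) hlow)) hB1 fun z hz => by
      rw [mem_sphere_zero_iff_norm] at hz
      have a := abs_le.1 ((abs_re_le_norm z).trans hz.le)
      have b := (abs_im_le_norm z).trans hz.le
      have hre : (s₀ + z).re = 2 + z.re := by simp [hs₀]
      have him : (s₀ + z).im = t + z.im := by simp [hs₀]
      calc ‖f z‖ ≤ Real.exp (growA * height K (s₀ + z).im) := by
            rw [hf]
            exact norm_cleared_le_exp K ⟨by rw [hre]; linarith, by rw [hre]; linarith⟩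
        _ ≤ Real.exp (growA * (2 * height K t)) := by
            refine Real.exp_le_exp.2 (mul_le_mul_of_nonneg_left (height_le_two_mul K (Or.inl ?_))
              hgrow)
            rw [him]
            linarith [abs_add_le t z.im]
        _ ≤ B * Real.exp (-(finrank ℚ K * eulerConst 2)) := by
            rw [hB, ← Real.exp_add]
            refine Real.exp_le_exp.2 ?_
            nlinarith [mul_le_mul_of_nonneg_left hnh (eulerConst_nonneg 2)]
        _ ≤ _ := mul_le_mul_of_nonneg_left hlow (by linarith)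
  obtain ⟨E, hE⟩ : ∃ E, E = A * (2 * growA + eulerConst 2 + 1) * height K t := ⟨_, rfl⟩
  have hKE : A * (Real.log B + 1) ≤ E := by
    rw [hE, hB, Real.log_exp, mul_assoc]
    exact mul_le_mul_of_nonneg_left (by nlinarith) hA
  obtain ⟨Z', hZ'⟩ : ∃ Z', Z' = Z.map fun ρ => ρ + s₀ := ⟨_, rfl⟩
  have hroot : ∀ ρ ∈ Z', ∀ u ∈ uIcc (1 / 2 : ℝ) 2, (u : ℂ) + t * I ≠ ρ := by
    intro ρ hρ u hu h
    rw [uIcc_of_le (by norm_num)] at hu
    rw [hZ'] at hρ
    obtain ⟨x, hx, rfl⟩ := Multiset.mem_map.1 hρ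
    have hx' : 0 < Z.count x := Multiset.count_pos.2 hx
    rw [← hord x (hZ x hx)] at hx'
    have hz : f x = 0 := apply_eq_zero_of_analyticOrderNatAt_ne_zero hx'.ne'
    refine hne u hu ?_
    rw [h, add_comm]
    simpa [hf] using hz
  obtain ⟨hRi, hRb⟩ := FA.DerivZetaZeros.roots_turn Z' hroot
  have hrem : ∀ u ∈ Icc (1 / 2 : ℝ) 2, ‖deriv (cleared K) ((u : ℂ) + t * I) /
      cleared K ((u : ℂ) + t * I) - (Z'.map fun ρ => ((u : ℂ) + t * I - ρ)⁻¹).sum‖ ≤ E := by
    intro u hu
    have h1 := hlog ((u : ℂ) + t * I - s₀) (mem_closedBall_zero_iff.2 (by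
      rw [hs₀, show (u : ℂ) + t * I - (((2 : ℝ) : ℂ) + t * I) = ((u - 2 : ℝ) : ℂ) by
        push_cast; ring, Complex.norm_real, Real.norm_eq_abs, abs_le]
      constructor <;> linarith [hu.1, hu.2])) (by simpa [hf] using hne u hu)
    simp only [hf, deriv_comp_const_add, add_sub_cancel] at h1
    refine le_trans (le_of_eq ?_) (h1.trans hKE)
    rw [hZ', Multiset.map_map]
    congr 3
    refine Multiset.map_congr rfl fun ρ _ => ?_
    simp only [Function.comp_apply]
    congr 1
    ring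
  have hLc : ContinuousOn (fun u : ℝ => deriv (cleared K) ((u : ℂ) + t * I) /
      cleared K ((u : ℂ) + t * I)) (uIcc (1 / 2) 2) := fun u hu => by
    rw [uIcc_of_le (by norm_num)] at hu
    exact (ContinuousAt.comp' (g := fun z => deriv (cleared K) z / cleared K z)
      (continuousAt_logDeriv isOpen_univ hd.differentiableOn (mem_univ _) (hne u hu))
      (f := fun v : ℝ => (v : ℂ) + t * I) (by fun_prop)).continuousWithinAt
  have hdiff : |((∫ u in (1 / 2 : ℝ)..2, deriv (cleared K) ((u : ℂ) + t * I) /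
      cleared K ((u : ℂ) + t * I)) -
        ∫ u in (1 / 2 : ℝ)..2, (Z'.map fun ρ => ((u : ℂ) + t * I - ρ)⁻¹).sum).im| ≤ 2 * E := by
    refine (abs_im_le_norm _).trans ?_
    rw [← intervalIntegral.integral_sub hLc.intervalIntegrable hRi]
    refine (intervalIntegral.norm_integral_le_of_norm_le_const (C := E) fun u hu => ?_).trans ?_
    · rw [uIoc_of_le (by norm_num)] at hu
      exact hrem u ⟨hu.1.le, hu.2⟩
    · have hE0 : 0 ≤ E := hE ▸ mul_nonneg (mul_nonneg hA (by linarith [eulerConst_nonneg 2]))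
        (by linarith)
      norm_num
      linarith
  have h2 := mul_le_mul_of_nonneg_left
    (show (Multiset.card Z' : ℝ) ≤ E by rw [hZ', Multiset.card_map]; exact hcard.trans hKE)
    (show 0 ≤ 2 * π by positivity)
  rw [show (2 * π + 2) * (A * (2 * growA + eulerConst 2 + 1)) * height K t =
    2 * π * E + 2 * E by rw [hE]; ring]
  rw [sub_im] at hdiff
  rw [abs_le] at hRb hdiff ⊢
  constructor <;> linarith

/-- **A horizontal edge.** -/
theorem exists_horizontal_xiLog : ∃ A, 0 ≤ A ∧ ∀ (K : Type u) [Field K] [NumberField K] (t : ℝ),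
    2 ≤ t → (∀ ρ, xiFun K ρ = 0 → ρ.im ≠ t) →
      |(∫ u in (1 / 2 : ℝ)..2, xiLog K ((u : ℂ) + t * I)).im| ≤ A * height K t := by
  obtain ⟨A, hA, hL⟩ := exists_horizontal_cleared.{u}
  refine ⟨A + 58, by positivity, fun K _ _ t ht hord => ?_⟩
  have hre : ∀ u : ℝ, ((u : ℂ) + t * I).re = u := fun u => by simp
  have hne : ∀ u ∈ Icc (1 / 2 : ℝ) 2, cleared K ((u : ℂ) + t * I) ≠ 0 := fun u hu h0 =>
    hord ((u : ℂ) + t * I)
      (by rw [xi_eq_mul K (by rw [hre]; linarith [hu.1]), h0, mul_zero, zero_mul]) (by simp)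
  have hl := hL K t hne
  have hd := differentiable_cleared K
  have hLc : ContinuousOn (fun u : ℝ => deriv (cleared K) ((u : ℂ) + t * I) /
      cleared K ((u : ℂ) + t * I)) (uIcc (1 / 2) 2) := fun u hu => by
    rw [uIcc_of_le (by norm_num)] at hu
    exact (ContinuousAt.comp' (g := fun z => deriv (cleared K) z / cleared K z)
      (continuousAt_logDeriv isOpen_univ hd.differentiableOn (mem_univ _) (hne u hu))
      (f := fun v : ℝ => (v : ℂ) + t * I) (by fun_prop)).continuousWithinAt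
  have hc : ContinuousOn (fun u : ℝ => xiLog K ((u : ℂ) + t * I)) (uIcc (1 / 2) 2) := fun u _ =>
    (ContinuousAt.comp' (g := xiLog K) (continuousAt_xiLog K fun h => hord _ h (by simp))
      (f := fun v : ℝ => (v : ℂ) + t * I) (by fun_prop)).continuousWithinAt
  have hd' : ∀ u ∈ uIcc (1 / 2 : ℝ) 2,
      HasDerivAt (fun v : ℝ => gPart K ((v : ℂ) + t * I))
        (xiLog K ((u : ℂ) + t * I) - deriv (cleared K) ((u : ℂ) + t * I) /
          cleared K ((u : ℂ) + t * I)) u := fun u hu => by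
    rw [uIcc_of_le (by norm_num)] at hu
    have h := (hasDerivAt_gPart K (s := (u : ℂ) + t * I) (by rw [hre]; linarith [hu.1])
      (hne u hu)).comp u (((hasDerivAt_id' (u : ℂ)).add_const ((t : ℂ) * I)).comp_ofReal)
    exact h.congr_deriv (mul_one _)
  have hint := intervalIntegral.integral_eq_sub_of_hasDerivAt hd'
    (hc.sub hLc).intervalIntegrable
  rw [intervalIntegral.integral_sub hc.intervalIntegrable hLc.intervalIntegrable] at hint
  have hi := congrArg Complex.im hint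
  rw [sub_im, sub_im] at hi
  have s1 := abs_im_gPart_le K (u := 2) (by norm_num) le_rfl ht
  have s2 := abs_im_gPart_le K (u := 1 / 2) le_rfl (by norm_num) ht
  obtain ⟨hn1, hnh⟩ := degree_le_height K t
  rw [abs_le] at hl s1 s2 ⊢
  constructor <;> linarith

end FA.DedekindZeroCount

end
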