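import Fermat.Agent.DedekindZeroCount.Basic
import Fermat.Agent.DirichletZeroCount.Edges
import Fermat.Agent.PrimeIdealTheorem.Euler

/-!
# A logarithm of `ξ`

On `re s > 0` one has `ξ = exp (G) E` with `G` built from `log s`, `s log |d| / 2` and the
logarithms of the Gamma factors; on `re s > 1` also `E = exp (log (s - 1) + log ζ_K)` with the
logarithm of the Euler product, which is `O (n)` on `re s = 2`.
-/

set_option autoImplicit false
set_option linter.style.haveILetI false

noncomputable section

universe u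

open NumberField InfinitePlace Module Complex Filter Topology Set IsDedekindDomain Ideal
open FA.HeckeBS FA.HeckeFE FA.DedekindZF
open FA.RiemannMangoldt (logGammaReal hasDerivAt_logGammaReal)
open scoped Real Classical ComplexConjugate

namespace FA.DedekindZeroCount

variable (K : Type u) [Field K] [NumberField K]

/-- `log |d|`. -/
def discLog : ℝ := Real.log (((discr K).natAbs : ℕ) : ℝ)

theorem discLog_nonneg : 0 ≤ discLog K :=
  Real.log_nonneg (Nat.one_le_cast.2 (Int.natAbs_pos.2 (discr_ne_zero K)))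

/-- The logarithm of `s Δ s`. -/
def gPart (s : ℂ) : ℂ :=
  Complex.log s + s / 2 * (discLog K : ℂ) +
    (((nrRealPlaces K + nrComplexPlaces K : ℕ) : ℂ) * logGammaReal s +
      (nrComplexPlaces K : ℂ) * logGammaReal (s + 1))

theorem exp_logGammaReal {u : ℂ} (hu : 0 < u.re) :
    Complex.exp (logGammaReal u) = Gammaℝ u := by
  rw [Gammaℝ_def, logGammaReal, Complex.exp_add, FA.RiemannMangoldt.exp_logGam (by simpa using hu),
    cpow_def_of_ne_zero (ofReal_ne_zero.2 Real.pi_ne_zero), ← ofReal_log Real.pi_pos.le]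
  congr 2
  ring

theorem exp_gPart {s : ℂ} (hs : 0 < s.re) : Complex.exp (gPart K s) = s * gamFac K s := by
  have h1 : 0 < (s + 1).re := by simp; linarith
  have h0 : s ≠ 0 := fun h => by simp [h] at hs
  rw [gPart, Complex.exp_add, Complex.exp_add, Complex.exp_add, Complex.exp_log h0,
    Complex.exp_nat_mul, Complex.exp_nat_mul, exp_logGammaReal hs, exp_logGammaReal h1, gamFac,
    ← Gammaℝ_mul_Gammaℝ_add_one, cpow_def_of_ne_zero (discr_natAbs_ne_zero K),
    ← Complex.natCast_log, discLog, mul_pow, pow_add, mul_comm (s / 2)]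
  ring

theorem differentiableAt_gPart {s : ℂ} (hs : 0 < s.re) : DifferentiableAt ℂ (gPart K) s := by
  have h1 : 0 < (s + 1).re := by simp; linarith
  exact ((differentiableAt_log (Or.inl hs)).add ((differentiableAt_id.div_const 2).mul_const _)).add
    (((hasDerivAt_logGammaReal hs).differentiableAt.const_mul _).add
      (((hasDerivAt_logGammaReal h1).differentiableAt.fun_comp' s
        (differentiableAt_id.add_const 1)).const_mul _))

/-- **`G' = ξ'/ξ - E'/E`.** -/
theorem hasDerivAt_gPart {s : ℂ} (hs : 0 < s.re) (hE : cleared K s ≠ 0) :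
    HasDerivAt (gPart K) (xiLog K s - deriv (cleared K) s / cleared K s) s := by
  have hg := (differentiableAt_gPart K hs).hasDerivAt
  have he : xiFun K =ᶠ[𝓝 s] fun z => Complex.exp (gPart K z) * cleared K z := by
    filter_upwards [(isOpen_lt continuous_const continuous_re).mem_nhds hs] with z hz
    rw [exp_gPart K hz, xi_eq_mul K hz]
    ring
  refine hg.congr_deriv ?_
  rw [xiLog, he.deriv_eq, he.eq_of_nhds,
    (hg.cexp.fun_mul (differentiable_cleared K s).hasDerivAt).deriv]
  have := Complex.exp_ne_zero (gPart K s)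
  field_simp
  ring

/-- The logarithm of the Euler product of `ζ_K`. -/
def logZeta (s : ℂ) : ℂ := FA.PrimeIdeal.logLC (1 : ClassGroup (𝓞 K) →* ℂˣ) s

theorem exp_logZeta {s : ℂ} (hs : 1 < s.re) : Complex.exp (logZeta K s) = dedekindZeta K s := by
  rw [logZeta, FA.PrimeIdeal.exp_logLC _ hs, FA.PrimeIdeal.classLC_one hs]

theorem differentiableAt_logZeta {s : ℂ} (hs : 1 < s.re) : DifferentiableAt ℂ (logZeta K) s := by
  obtain ⟨σ, hσ⟩ : ∃ σ, σ = (1 + s.re) / 2 := ⟨_, rfl⟩
  have hσ1 : 1 < σ := by linarith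
  obtain ⟨V, hV⟩ : ∃ V : Set ℂ, V = {z | σ < z.re} := ⟨_, rfl⟩
  have hVo : IsOpen V := hV ▸ isOpen_lt continuous_const Complex.continuous_re
  have hsV : s ∈ V := by rw [hV]; show σ < s.re; linarith
  refine (Complex.differentiableOn_tsum_of_summable_norm
    ((FA.PrimeIdeal.summable_zN_primeIdeal (K := K) hσ1).mul_left (3 / 2)) (fun v z hz => ?_) hVo
      fun v z hz => ?_).differentiableAt (hVo.mem_nhds hsV)
  · rw [hV] at hz
    exact (FA.PrimeIdeal.hasDerivAt_log_term _ (hσ1.le.trans (le_of_lt hz)) v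
      ).differentiableAt.differentiableWithinAt
  · rw [hV] at hz
    exact (FA.PrimeIdeal.norm_log_term_le _ (hσ1.le.trans (le_of_lt hz)) v).trans
      (mul_le_mul_of_nonneg_left (Real.rpow_le_rpow_of_exponent_le
        (FA.Ext.one_le_absNorm _) (neg_le_neg (le_of_lt hz))) (by norm_num))

theorem norm_logZeta_le {s : ℂ} (hs : 1 < s.re) :
    ‖logZeta K s‖ ≤ finrank ℚ K * eulerConst s.re := by
  have hsum := FA.PrimeIdeal.summable_zN_primeIdeal (K := K) hs
  refine (tsum_of_norm_bounded (hsum.mul_left (3 / 2)).hasSum fun v =>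
    FA.PrimeIdeal.norm_log_term_le _ hs.le v).trans ?_
  rw [tsum_mul_left]
  have hb : ∑' v : HeightOneSpectrum (𝓞 K), FA.Ext.zN s.re (FA.Ext.primeIdeal v) ≤
      finrank ℚ K * eulerConst s.re / 2 := hsum.tsum_le_of_sum_le fun T => by
    have e : ∀ v : HeightOneSpectrum (𝓞 K),
        FA.Ext.zN s.re (FA.Ext.primeIdeal v) = ((absNorm v.asIdeal : ℕ) : ℝ) ^ (-s.re) :=
      fun v => rfl
    simp only [e]
    have := FA.HeckeBS.sum_prime_rpow_le (K := K) T hs
    linarith
  have h0 : 0 ≤ (finrank ℚ K : ℝ) * eulerConst s.re :=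
    mul_nonneg (Nat.cast_nonneg _) (eulerConst_nonneg _)
  linarith

/-- The logarithm of `ξ` on `re s > 1`. -/
def xiPrim (s : ℂ) : ℂ := gPart K s + (Complex.log (s - 1) + logZeta K s)

theorem hasDerivAt_xiPrim {s : ℂ} (hs : 1 < s.re) : HasDerivAt (xiPrim K) (xiLog K s) s := by
  have hE := cleared_ne_zero_right K hs.le
  have h1 : (s - 1) ∈ slitPlane := Or.inl (by simp; linarith)
  have hlog := (((hasDerivAt_id s).sub_const 1).clog h1)
  have hz := (differentiableAt_logZeta K hs).hasDerivAt
  have he : cleared K =ᶠ[𝓝 s] fun z => (z - 1) * Complex.exp (logZeta K z) := by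
    filter_upwards [(isOpen_lt continuous_const continuous_re).mem_nhds hs] with z hz
    rw [exp_logZeta K hz, cleared_spec K hz]
  refine ((hasDerivAt_gPart K (by linarith) hE).add (hlog.add hz)).congr_deriv ?_
  have hd : deriv (cleared K) s / cleared K s = 1 / (s - 1) + deriv (logZeta K) s := by
    rw [he.deriv_eq, he.eq_of_nhds,
      (((hasDerivAt_id' s).sub_const 1).fun_mul hz.cexp).deriv]
    have := Complex.exp_ne_zero (logZeta K s)
    have h10 : s - 1 ≠ 0 := slitPlane_ne_zero h1
    field_simp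
  simp only [id_eq]
  rw [hd]
  ring

end FA.DedekindZeroCount

end
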